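import Mathlib

/-!
# FF2 / S32M : the annihilator criterion for subquotients

`G` a monoid acting additively on finite abelian groups `X` and `N`.  If every element
`u = ∑ n_g g` of the integral monoid ring which kills `X` also kills `N`, then `N` is a
`G`-equivariant quotient of a `G`-stable subgroup of a finite power of `X`
(`exists_subquotient_of_ann`).  (The converse is obvious.)

So, to realise `N` inside powers of `X`, no explicit embedding has to be constructed: it suffices
to compare annihilators in `ℤ[G]`.  Elements of `ℤ[G]` are modelled as `G →₀ ℤ`, acting through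
`fsAct`.  Mathlib only.
-/

set_option autoImplicit false
set_option linter.unusedSectionVars false

namespace Fermat.Agent.FF2.S32M

variable {G : Type*} [Monoid G]

section Act

variable (X : Type*) [AddCommGroup X] [DistribMulAction G X]

/-- The action of `∑ n_g g ∈ ℤ[G]` on `X`. -/
noncomputable def fsAct : (G →₀ ℤ) →+ (X →+ X) :=
  Finsupp.liftAddHom (fun g => zmultiplesHom (X →+ X) (DistribSMul.toAddMonoidHom X g))

variable {X}

@[simp] theorem fsAct_single (g : G) (n : ℤ) (x : X) :
    fsAct X (Finsupp.single g n) x = n • g • x := by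
  simp [fsAct]

theorem fsAct_apply (u : G →₀ ℤ) (x : X) :
    fsAct X u x = u.sum (fun g n => n • g • x) := by
  induction u using Finsupp.induction_linear with
  | zero => simp
  | add u v hu hv =>
    rw [map_add, AddMonoidHom.add_apply, hu, hv, Finsupp.sum_add_index']
    · intro g; simp
    · intro g m n; rw [add_smul]
  | single g n => simp

/-- Left translation on `ℤ[G]`. -/
noncomputable def ltr (g : G) : (G →₀ ℤ) →+ (G →₀ ℤ) :=
  Finsupp.mapDomain.addMonoidHom (fun h => g * h)

@[simp] theorem ltr_single (g h : G) (n : ℤ) :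
    ltr g (Finsupp.single h n) = Finsupp.single (g * h) n := by
  simp [ltr]

theorem fsAct_ltr (g : G) (u : G →₀ ℤ) (x : X) : fsAct X (ltr g u) x = g • fsAct X u x := by
  induction u using Finsupp.induction_linear with
  | zero => simp
  | add u v hu hv => simp only [map_add, AddMonoidHom.add_apply, hu, hv, smul_add]
  | single h n => rw [ltr_single, fsAct_single, fsAct_single, mul_smul, smul_comm]

end Act

section Ann

variable {X N : Type*} [AddCommGroup X] [AddCommGroup N] [DistribMulAction G X]
  [DistribMulAction G N]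

/-- `u ↦ ((y, x) ↦ u_y ⋆ x)`. -/
noncomputable def thetaHom [Finite N] : (N → (G →₀ ℤ)) →+ (N × X → X) where
  toFun u := fun yx => fsAct X (u yx.1) yx.2
  map_zero' := by funext yx; simp
  map_add' u v := by funext yx; simp

/-- `u ↦ ∑_y u_y ⋆ y`. -/
noncomputable def sigmaHom [Fintype N] : (N → (G →₀ ℤ)) →+ N where
  toFun u := ∑ y : N, fsAct N (u y) y
  map_zero' := by simp
  map_add' u v := by simp [Finset.sum_add_distrib]

/-- **Annihilator criterion.**  If `Ann_{ℤ[G]} X ⊆ Ann_{ℤ[G]} N` then `N` is an equivariant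
quotient of a stable subgroup of `X^(N × X)`. -/
theorem exists_subquotient_of_ann [Finite X] [Finite N]
    (hann : ∀ u : G →₀ ℤ, (∀ x : X, fsAct X u x = 0) → ∀ y : N, fsAct N u y = 0) :
    ∃ (W : AddSubgroup (N × X → X)) (_ : ∀ (g : G) v, v ∈ W → (fun i => g • v i) ∈ W)
      (q : W →+ N), Function.Surjective q ∧
        ∀ (g : G) (w : W) (hw : (fun i => g • w.1 i) ∈ W),
          q ⟨fun i => g • w.1 i, hw⟩ = g • q w := by
  classical
  cases nonempty_fintype N
  let Θ : (N → (G →₀ ℤ)) →+ (N × X → X) := thetaHom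
  let Q : (N → (G →₀ ℤ)) →+ N := sigmaHom
  have hΘ : ∀ u yx, Θ u yx = fsAct X (u yx.1) yx.2 := fun _ _ => rfl
  have hQ : ∀ u, Q u = ∑ y : N, fsAct N (u y) y := fun _ => rfl
  -- `Q` factors through `Θ`
  have hker : ∀ u, Θ u = 0 → Q u = 0 := by
    intro u hu
    rw [hQ]
    refine Finset.sum_eq_zero fun y _ => hann (u y) (fun x => ?_) y
    have := congrFun hu (y, x)
    rwa [hΘ] at this
  have hwd : ∀ u v, Θ u = Θ v → Q u = Q v := by
    intro u v huv
    have : Θ (u - v) = 0 := by rw [map_sub, huv, sub_self]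
    have := hker _ this
    rwa [map_sub, sub_eq_zero] at this
  -- translation
  let tr : G → (N → (G →₀ ℤ)) → (N → (G →₀ ℤ)) := fun g u y => ltr g (u y)
  have hΘtr : ∀ g u, Θ (tr g u) = fun i => g • Θ u i := by
    intro g u
    funext yx
    rw [hΘ, hΘ]
    exact fsAct_ltr g (u yx.1) yx.2
  have hQtr : ∀ g u, Q (tr g u) = g • Q u := by
    intro g u
    rw [hQ, hQ, Finset.smul_sum]
    exact Finset.sum_congr rfl fun y _ => fsAct_ltr g (u y) y
  refine ⟨Θ.range, ?_, ?_⟩
  · rintro g _ ⟨u, rfl⟩
    exact ⟨tr g u, hΘtr g u⟩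
  · -- the map `q` on the range, by choice of a preimage
    have hex : ∀ w : Θ.range, ∃ u, Θ u = w.1 := fun w => w.2
    choose pre hpre using hex
    have hqΘ : ∀ (w : Θ.range) u, Θ u = w.1 → Q (pre w) = Q u := fun w u hu =>
      hwd _ _ ((hpre w).trans hu.symm)
    let q : Θ.range →+ N :=
      { toFun := fun w => Q (pre w)
        map_zero' := by
          rw [hqΘ 0 0 (map_zero Θ), map_zero]
        map_add' := fun w w' => by
          rw [hqΘ (w + w') (pre w + pre w') (by rw [map_add, hpre, hpre]; rfl), map_add] }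
    have hq : ∀ u, q ⟨Θ u, u, rfl⟩ = Q u := fun u => hqΘ ⟨Θ u, u, rfl⟩ u rfl
    refine ⟨q, ?_, ?_⟩
    · intro y
      refine ⟨⟨Θ (Pi.single y (Finsupp.single 1 1)), _, rfl⟩, ?_⟩
      rw [hq, hQ, Finset.sum_eq_single y]
      · rw [Pi.single_eq_same, fsAct_single, one_smul, one_smul]
      · intro z _ hz
        rw [Pi.single_eq_of_ne hz, map_zero, AddMonoidHom.zero_apply]
      · intro h; exact absurd (Finset.mem_univ y) h
    · rintro g ⟨_, u, rfl⟩ hw
      have h1 : (⟨fun i => g • Θ u i, hw⟩ : Θ.range) = ⟨Θ (tr g u), tr g u, rfl⟩ :=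
        Subtype.ext (hΘtr g u).symm
      rw [h1, hq, hq, hQtr]

/-- The annihilator criterion with explicit actions `aX`, `aN` (no type-class actions). -/
theorem exists_subquotient_of_ann' {X N : Type*} [AddCommGroup X] [AddCommGroup N] [Finite X]
    [Finite N] (aX : G →* AddMonoid.End X) (aN : G →* AddMonoid.End N)
    (hann : ∀ u : G →₀ ℤ, (∀ x : X, u.sum (fun g n => n • aX g x) = 0) →
      ∀ y : N, u.sum (fun g n => n • aN g y) = 0) :
    ∃ (W : AddSubgroup (N × X → X)) (_ : ∀ (g : G) v, v ∈ W → (fun i => aX g (v i)) ∈ W)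
      (q : W →+ N), Function.Surjective q ∧
        ∀ (g : G) (w : W) (hw : (fun i => aX g (w.1 i)) ∈ W),
          q ⟨fun i => aX g (w.1 i), hw⟩ = aN g (q w) := by
  letI : DistribMulAction G X := DistribMulAction.compHom X aX
  letI : DistribMulAction G N := DistribMulAction.compHom N aN
  have hX : ∀ (g : G) (x : X), g • x = aX g x := fun _ _ => rfl
  have hN : ∀ (g : G) (y : N), g • y = aN g y := fun _ _ => rfl
  obtain ⟨W, hW, q, hq, hqact⟩ := exists_subquotient_of_ann (G := G) (X := X) (N := N)
    (fun u hu y => by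
      rw [fsAct_apply]
      simp only [hN]
      refine hann u (fun x => ?_) y
      have := hu x
      rw [fsAct_apply] at this
      simpa only [hX] using this)
  exact ⟨W, fun g v hv => hW g v hv, q, hq, fun g w hw => hqact g w hw⟩

end Ann

end Fermat.Agent.FF2.S32M
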