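import Mathlib
import Fermat.Agent.FF2.S32E.AevalEnd
import Fermat.Agent.FF2.S32C.Chi

/-!
# FF2 / S32M (L9b) : saturation over `𝒪` from saturation over `ℤ` (the `χ`-trick)

`X` an abelian group killed by `n`, `tX i` commuting endomorphisms of `X`; `𝒪` a ring with a
"dual basis modulo `n`" (`c = ∑ j, (χ j c).val * b j + n * d`); `T` an `𝒪`-algebra, `φ : ι → T`,
`𝔞` an ideal of `T` containing `n`.  If every integral polynomial killing `X` (through `tX`) is sent
into `𝔞` by `φ`, then every polynomial over `𝒪` killing `𝒪 ⊗[ℤ] X` is sent into `𝔞` by `φ`.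
-/

set_option autoImplicit false
set_option linter.unusedSectionVars false

open TensorProduct MvPolynomial

namespace Fermat.Agent.FF2.S32M

open Fermat.Agent.FF2.S32E Fermat.Agent.FF2.S32C

variable {𝒪 T X ι : Type*} [CommRing 𝒪] [CommRing T] [Algebra 𝒪 T] [AddCommGroup X]
  {n : ℕ} [NeZero n]

/-- `aeval` of a monomial over `ℤ` and over `𝒪` through the common monomial value. -/
theorem aeval_monomial_int (φ : ι → T) (α : ι →₀ ℕ) (k : ℤ) :
    MvPolynomial.aeval φ (monomial α k) = (k : T) * α.prod fun i e => φ i ^ e := by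
  rw [MvPolynomial.aeval_monomial, eq_intCast]

theorem sat_of_chi
    (hX : ∀ x : X, (n : ℤ) • x = 0)
    (tX : ι → Module.End ℤ X) (htX : ∀ i j, Commute (tX i) (tX j))
    {r : ℕ} (b : Fin r → 𝒪) (χ : Fin r → 𝒪 →+ ZMod n)
    (hdual : ∀ c : 𝒪, ∃ d : 𝒪, c = ∑ j, (((χ j c).val : ℕ) : 𝒪) * b j + (n : 𝒪) * d)
    (φ : ι → T) (𝔞 : Ideal T) (hn : (n : T) ∈ 𝔞)
    (hsatZ : ∀ h₀ : MvPolynomial ι ℤ, (∀ x, aevalEnd tX htX h₀ x = 0) →
      MvPolynomial.aeval φ h₀ ∈ 𝔞)
    (h : MvPolynomial ι 𝒪)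
    (hh : aevalEnd (fun i => ((tX i).baseChange 𝒪 : Module.End 𝒪 (𝒪 ⊗[ℤ] X)))
      (fun i j => commute_baseChange (htX i j)) h = 0) :
    MvPolynomial.aeval φ h ∈ 𝔞 := by
  classical
  -- the integral polynomials `h_j`
  let hj : Fin r → MvPolynomial ι ℤ := fun j =>
    ∑ α ∈ h.support, monomial α ((((χ j (h.coeff α)).val : ℕ) : ℤ))
  -- Claim A : `h_j` kills `X`
  have hA : ∀ j x, aevalEnd tX htX (hj j) x = 0 := by
    intro j x
    have h1 : aevalEnd tX htX (hj j) x =
        ∑ α ∈ h.support, (((χ j (h.coeff α)).val : ℕ) : ℤ) •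
          aevalEnd tX htX (monomial α 1) x := by
      show aevalEnd tX htX (∑ α ∈ h.support, monomial α ((((χ j (h.coeff α)).val : ℕ) : ℤ))) x = _
      rw [map_sum, LinearMap.sum_apply]
      refine Finset.sum_congr rfl fun α _ => ?_
      rw [aevalEnd_monomial, LinearMap.smul_apply]
    have h2 := congrArg (fun F : Module.End 𝒪 (𝒪 ⊗[ℤ] X) => F ((1 : 𝒪) ⊗ₜ[ℤ] x)) hh
    simp only [LinearMap.zero_apply] at h2
    rw [aevalEnd_apply_eq_sum] at h2
    have h3 : ∀ α : ι →₀ ℕ,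
        aevalEnd (fun i => ((tX i).baseChange 𝒪 : Module.End 𝒪 (𝒪 ⊗[ℤ] X)))
          (fun i j => commute_baseChange (htX i j)) (monomial α 1) ((1 : 𝒪) ⊗ₜ[ℤ] x) =
        (1 : 𝒪) ⊗ₜ[ℤ] (aevalEnd tX htX (monomial α 1) x) := by
      intro α
      have h4 := aevalEnd_baseChange_int (𝒪 := 𝒪) tX htX (monomial α (1 : ℤ))
      rw [MvPolynomial.map_monomial, eq_intCast, Int.cast_one] at h4
      rw [h4, LinearMap.baseChange_tmul]
    have h5 : (∑ α ∈ h.support, h.coeff α •
        ((1 : 𝒪) ⊗ₜ[ℤ] (aevalEnd tX htX (monomial α 1) x))) = 0 := by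
      rw [← h2]
      exact Finset.sum_congr rfl fun α _ => by rw [h3 α]
    have h6 := congrArg (chiX hX (χ j)) h5
    rw [chiX_sum_smul_one_tmul, map_zero] at h6
    rw [h1]
    exact h6
  -- Claim B : the decomposition of `aeval φ h`
  have hZ : ∀ j, MvPolynomial.aeval φ (hj j) ∈ 𝔞 := fun j => hsatZ (hj j) (hA j)
  choose dd hdd using hdual
  have hB : MvPolynomial.aeval φ h =
      ∑ j, algebraMap 𝒪 T (b j) * MvPolynomial.aeval φ (hj j) +
        (n : T) * ∑ α ∈ h.support, algebraMap 𝒪 T (dd (h.coeff α)) *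
          α.prod fun i e => φ i ^ e := by
    have h1 : ∀ j, MvPolynomial.aeval φ (hj j) =
        ∑ α ∈ h.support, ((((χ j (h.coeff α)).val : ℕ) : ℤ) : T) * α.prod fun i e => φ i ^ e := by
      intro j
      show MvPolynomial.aeval φ (∑ α ∈ h.support,
        monomial α ((((χ j (h.coeff α)).val : ℕ) : ℤ))) = _
      rw [map_sum]
      exact Finset.sum_congr rfl fun α _ => aeval_monomial_int φ α _
    have h2 : MvPolynomial.aeval φ h =
        ∑ α ∈ h.support, algebraMap 𝒪 T (h.coeff α) * α.prod fun i e => φ i ^ e := by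
      conv_lhs => rw [h.as_sum, map_sum]
      exact Finset.sum_congr rfl fun α _ => MvPolynomial.aeval_monomial _ _ _
    rw [h2]
    simp only [h1, Finset.mul_sum]
    rw [Finset.sum_comm, ← Finset.sum_add_distrib]
    refine Finset.sum_congr rfl fun α _ => ?_
    conv_lhs => rw [hdd (h.coeff α)]
    rw [map_add, map_sum, add_mul, Finset.sum_mul]
    congr 1
    · refine Finset.sum_congr rfl fun j _ => ?_
      rw [map_mul, map_natCast, Int.cast_natCast]
      ring
    · rw [map_mul, map_natCast]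
      ring
  rw [hB]
  refine 𝔞.add_mem (𝔞.sum_mem fun j _ => 𝔞.mul_mem_left _ (hZ j)) (𝔞.mul_mem_right _ hn)

end Fermat.Agent.FF2.S32M
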