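import Mathlib
import Fermat.Prelude.Def_CuspForm_HeckeGaloisRepDatum
import Fermat.Prelude.Def_ModularCurve_HeckeModule

/-!
# FF2 / S32M : shared definitions for the leaves of the S32M board

* `PIdx S` : the index type of primes outside `S` (reducibly equal to `Pseudo.GQSys.Idx S`).
* `piT hNS π` : the family `i ↦ π (T_i)` of Hecke eigenvalues in `T` (`i ∉ S`, hence `i ∤ N`).
-/

set_option autoImplicit false

namespace Fermat.Agent.FF2.S32M

open CuspForm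

/-- Primes outside `S`. -/
abbrev PIdx (S : Finset ℕ) : Type := {ℓ : Nat.Primes // (ℓ : ℕ) ∉ S}

variable {N : ℕ} {S : Finset ℕ}

theorem PIdx.not_dvd (hNS : ∀ q : ℕ, q.Prime → q ∣ N → q ∈ S) (i : PIdx S) :
    ¬ ((i.1 : ℕ) ∣ N) := fun hd => i.2 (hNS _ i.1.2 hd)

theorem PIdx.not_mem_coe (i : PIdx S) : ((i.1 : ℕ)) ∉ (↑S : Set ℕ) :=
  fun hs => i.2 (Finset.mem_coe.mp hs)

/-- The family of Hecke eigenvalues `π (T_ℓ)`, `ℓ ∉ S`. -/
noncomputable def piT [NeZero N] {T : Type} [CommRing T] (hNS : ∀ q : ℕ, q.Prime → q ∣ N → q ∈ S)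
    (π : heckeAlgebra N 2 (↑S : Set ℕ) →+* T) (i : PIdx S) : T :=
  π (heckeAlgebra.T i.1.2 (PIdx.not_dvd hNS i) (PIdx.not_mem_coe i))

theorem piT_apply [NeZero N] {T : Type} [CommRing T] (hNS : ∀ q : ℕ, q.Prime → q ∣ N → q ∈ S)
    (π : heckeAlgebra N 2 (↑S : Set ℕ) →+* T) (i : PIdx S) :
    piT hNS π i = π (heckeAlgebra.T i.1.2 (PIdx.not_dvd hNS i) (PIdx.not_mem_coe i)) := rfl

end Fermat.Agent.FF2.S32M
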