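import Mathlib
import Fermat.Prelude.Def_GaloisRep_Flat
import Fermat.Prelude.Def_ModularCurve_ArithmeticGalois
import Fermat.Agent.TW.Hopf.DecompCor
import Fermat.Agent.TW.Hopf.ClosureProd
import Fermat.Agent.FF2.Order.S19Sink

/-!
# FF2 / S32M (S32 from S19, main-dialect half): the END glue

* `S19Statement` : the frozen statement S19, for all levels, as a `Prop`.
* `isFlatRealizable_torsion_of_S19` : S19 in the language of main's `Closure.IsFlatRealizable`.
* `IsFlatRealizable.pi` : finite powers `Fin s → V`.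
* `isFlatAt_of_realisation` : **(END)** if, for every ideal `I` of finite index, the `G_ℚ`-module
  `ρ.V / I·ρ.V` is an equivariant additive quotient of a `G_ℚ`-stable subgroup of
  `J₀(N)[p^m]^ι` for some `m` and finite `ι`, then `ρ.IsFlatAt p` (given S19 at level `N`, `ℓ = p ∤ N`, and the
  finiteness (G0) of `J₀(N)[p^m]`).
-/

set_option autoImplicit false
set_option linter.unusedSectionVars false
set_option linter.style.haveILetI false

namespace Fermat.Agent.FF2.S32M

open WithConv ModularCurve Fermat.Agent.TW.Hopf.Closure Fermat.Agent.TW.Hopf.DecompRing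
  Fermat.Agent.FF2.Order

local notation "Qb" => AlgebraicClosure ℚ
local notation "GQ" => (AlgebraicClosure ℚ ≃ₐ[ℚ] AlgebraicClosure ℚ)

/-- The frozen statement S19 (all levels `N`, all primes `ℓ ∤ N`, all `k`). -/
def S19Statement : Prop :=
  ∀ (N : ℕ) [NeZero N] (ℓ : ℕ) [Fact ℓ.Prime] (_ : ¬ ℓ ∣ N) (k : ℕ),
    ∃ (H : Type) (_ : CommRing H) (_ : HopfAlgebra (GaloisRep.ratLocalizedAt ℓ) H),
      Module.Finite (GaloisRep.ratLocalizedAt ℓ) H ∧ Module.Flat (GaloisRep.ratLocalizedAt ℓ) H ∧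
      Coalgebra.IsCocomm (GaloisRep.ratLocalizedAt ℓ) H ∧
      ∃ e : WithConv (H →ₐ[GaloisRep.ratLocalizedAt ℓ] AlgebraicClosure ℚ) ≃
          ↥(Submodule.torsionBy ℤ (JZero N) ((ℓ : ℤ) ^ k)),
        (∀ f g, e (f * g) = e f + e g) ∧
        ∀ (σ : AlgebraicClosure ℚ ≃ₐ[ℚ] AlgebraicClosure ℚ)
          (f g : WithConv (H →ₐ[GaloisRep.ratLocalizedAt ℓ] AlgebraicClosure ℚ)),
          (∀ h : H, g h = σ (f h)) → ((e g : JZero N)) = σ • (e f : JZero N)

/-- S19 in the language of `IsFlatRealizable`. -/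
theorem isFlatRealizable_torsion_of_S19 (h19 : S19Statement) (N : ℕ) [NeZero N] (ℓ : ℕ)
    [Fact ℓ.Prime] (hℓN : ¬ ℓ ∣ N) (k : ℕ) :
    IsFlatRealizable.{0} (globalOp ℓ) (torsAct N ℓ k) := by
  obtain ⟨H, i1, i2, hfin, hflat, hcc, e, hadd, hact⟩ := h19 N ℓ hℓN k
  refine ⟨H, i1, i2, hfin, hflat, hcc, e, hadd, fun σ f => Subtype.ext ?_⟩
  rw [coe_torsAct]
  exact hact σ f (toConv ((globalOp ℓ σ).comp f.ofConv)) (fun _ => rfl)

section Pi

variable {Λ : Type*} [CommRing Λ] [IsDomain Λ] [ValuationRing Λ]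
variable {Ω : Type*} [Field Ω] [Algebra Λ Ω] [FaithfulSMul Λ Ω] [CharZero Ω]
variable {G : Type*} {φ : G → Ω →ₐ[Λ] Ω} {V : Type*} [AddCommGroup V] {act : G → V → V}

/-- `V × (Fin s → V) ≃+ (Fin (s+1) → V)`. -/
def consAddEquiv (V : Type*) [AddCommGroup V] (s : ℕ) : (V × (Fin s → V)) ≃+ (Fin (s + 1) → V) where
  toFun p := Fin.cons p.1 p.2
  invFun v := (v 0, Fin.tail v)
  left_inv p := by simp
  right_inv v := by simp
  map_add' p q := by
    funext i
    refine Fin.cases ?_ (fun j => ?_) i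
    · simp
    · simp

/-- Finite powers of a realizable module are realizable. -/
theorem IsFlatRealizable.pi [Finite V] (hfrac : FixedIsFrac (Set.range φ))
    (hact0 : ∀ σ, act σ 0 = 0)
    (h : IsFlatRealizable.{0} φ act) (s : ℕ) :
    IsFlatRealizable.{0} φ (V := Fin s → V) (fun σ v i => act σ (v i)) := by
  induction s with
  | zero =>
    have h0 := h.addSubgroup hfrac (⊥ : AddSubgroup V) (fun σ v hv => by
      rw [AddSubgroup.mem_bot] at hv ⊢
      rw [hv, hact0])
    let f : (⊥ : AddSubgroup V) ≃+ (Fin 0 → V) :=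
      { toFun := fun _ => 0
        invFun := fun _ => 0
        left_inv := fun x => Subsingleton.elim _ _
        right_inv := fun x => Subsingleton.elim _ _
        map_add' := fun _ _ => by simp }
    exact h0.of_addEquiv f (fun σ v => Subsingleton.elim _ _)
  | succ s ih =>
    have hp := IsFlatRealizable.prod h ih
    refine hp.of_addEquiv (consAddEquiv V s) (fun σ v => ?_)
    funext i
    refine Fin.cases ?_ (fun j => ?_) i
    · simp [consAddEquiv]
    · simp [consAddEquiv]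

/-- Powers indexed by any finite type. -/
theorem IsFlatRealizable.pi_finite [Finite V] (hfrac : FixedIsFrac (Set.range φ))
    (hact0 : ∀ σ, act σ 0 = 0)
    (h : IsFlatRealizable.{0} φ act) (ι : Type*) [Finite ι] :
    IsFlatRealizable.{0} φ (V := ι → V) (fun σ v i => act σ (v i)) := by
  obtain ⟨s, ⟨e⟩⟩ := Finite.exists_equiv_fin ι
  have hs := IsFlatRealizable.pi hfrac hact0 h s
  let f : (Fin s → V) ≃+ (ι → V) :=
    { toFun := fun v i => v (e i)
      invFun := fun w j => w (e.symm j)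
      left_inv := fun v => by funext j; simp
      right_inv := fun w => by funext i; simp
      map_add' := fun v w => rfl }
  exact hs.of_addEquiv f (fun σ v => rfl)

end Pi

section End

variable {A : Type} [CommRing A] [IsLocalRing A]

/-- **(END)** `IsFlatAt` from a realisation of every finite level inside powers of `J₀(N)[p^m]`. -/
theorem isFlatAt_of_realisation (ρ : GaloisRepAdic A) (p : ℕ) [Fact p.Prime] (N : ℕ) [NeZero N]
    (hres : Finite (IsLocalRing.ResidueField A))
    (hflat : ∀ m : ℕ, IsFlatRealizable.{0} (globalOp p) (torsAct N p m))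
    (hfin : ∀ m : ℕ, Finite ↥(Submodule.torsionBy ℤ (JZero N) ((p : ℤ) ^ m)))
    (hreal : ∀ I : Ideal A, Finite (A ⧸ I) → ∃ (m : ℕ) (ι : Type) (_ : Finite ι)
      (W : AddSubgroup (ι → ↥(Submodule.torsionBy ℤ (JZero N) ((p : ℤ) ^ m))))
      (_ : ∀ (σ : GQ) v, v ∈ W → (fun i => torsAct N p m σ (v i)) ∈ W)
      (q : W →+ (ρ.V ⧸ (I • (⊤ : Submodule A ρ.V)))), Function.Surjective q ∧
        ∀ (σ : GQ) (w : W) (hw : (fun i => torsAct N p m σ (w.1 i)) ∈ W),
          q ⟨fun i => torsAct N p m σ (w.1 i), hw⟩ = ρ.levelAction I σ (q w)) :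
    ρ.IsFlatAt p := by
  refine ⟨hres, fun I hI => ?_⟩
  obtain ⟨m, ι, hι, W, hW, q, hqsurj, hqact⟩ := hreal I hI
  haveI := hfin m
  haveI := hι
  have hfrac := fixedIsFrac_globalOp p
  have hpi := IsFlatRealizable.pi_finite hfrac (fun σ => torsAct_zero N p m σ) (hflat m) ι
  -- the subgroup `W`
  have hWr := hpi.addSubgroup hfrac W hW
  -- the quotient by `ker q`
  have hK : ∀ (σ : GQ) (w : W), w ∈ q.ker →
      (⟨fun i => torsAct N p m σ (w.1 i), hW σ w.1 w.2⟩ : W) ∈ q.ker := by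
    intro σ w hw
    rw [AddMonoidHom.mem_ker] at hw ⊢
    rw [hqact σ w (hW σ w.1 w.2), hw]
    exact map_zero (ρ.levelAction I σ)
  obtain ⟨e, he⟩ : ∃ e : (↥W ⧸ q.ker) ≃+ (ρ.V ⧸ (I • (⊤ : Submodule A ρ.V))),
      ∀ w : W, e (QuotientAddGroup.mk w) = q w :=
    ⟨QuotientAddGroup.quotientKerEquivOfSurjective q hqsurj, fun w => rfl⟩
  let actW : GQ → W → W := fun σ w => ⟨fun i => torsAct N p m σ (w.1 i), hW σ w.1 w.2⟩
  have hWr' : IsFlatRealizable.{0} (globalOp p) actW := hWr
  let actQ : GQ → (↥W ⧸ q.ker) → (↥W ⧸ q.ker) := fun σ x => e.symm (ρ.levelAction I σ (e x))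
  have hactQ : ∀ (σ : GQ) (w : W), actQ σ (QuotientAddGroup.mk w) =
      QuotientAddGroup.mk (actW σ w) := by
    intro σ w
    apply e.injective
    have h1 : e (actQ σ (QuotientAddGroup.mk w)) =
        ρ.levelAction I σ (e (QuotientAddGroup.mk w)) := e.apply_symm_apply _
    exact h1.trans ((congrArg (ρ.levelAction I σ) (he w)).trans
      ((hqact σ w (hW σ w.1 w.2)).symm.trans (he (actW σ w)).symm))
  have hQ : IsFlatRealizable.{0} (globalOp p) actQ :=
    IsFlatRealizable.quotient (act := actW) hfrac hWr' q.ker (fun σ w hw => hK σ w hw) actQ hactQ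
  have hfinal : IsFlatRealizable.{0} (globalOp p) (fun σ => ρ.levelAction I σ) :=
    hQ.of_addEquiv e (act' := fun σ => ρ.levelAction I σ)
      (fun σ x => e.apply_symm_apply _)
  obtain ⟨H, i1, i2, h1, h2, h3, e', hadd, hact⟩ := hfinal
  refine ⟨H, i1, i2, h1, h2, h3, e', hadd, fun σ f g hfg => ?_⟩
  have hg : g = toConv ((globalOp p σ).comp f.ofConv) := by
    apply WithConv.ofConv_injective
    rw [ofConv_toConv]
    exact AlgHom.ext hfg
  rw [hg, hact σ f]

end End

end Fermat.Agent.FF2.S32M
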