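import Mathlib
import Fermat.Agent.FF2.S32M.End
import Fermat.Agent.FF2.S32M.Ann

/-!
# FF2 / S32M : `IsFlatAt` from a comparison of annihilators in `ℤ[G_ℚ]`

`isFlatAt_of_ann` : given S19 at level `N` (in `IsFlatRealizable` form) and (G0), the adic
representation `ρ` is flat at `p` as soon as for every ideal `I` of finite index there is `m` such
that every `u = ∑ n_σ σ ∈ ℤ[G_ℚ]` killing `J₀(N)[p^m]` kills `ρ.V / I·ρ.V`.
(`(END)` of `End.lean` + the annihilator criterion of `Ann.lean`.)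
-/

set_option autoImplicit false
set_option linter.unusedSectionVars false
set_option linter.style.haveILetI false

namespace Fermat.Agent.FF2.S32M

open WithConv ModularCurve Fermat.Agent.TW.Hopf.Closure Fermat.Agent.TW.Hopf.DecompRing
  Fermat.Agent.FF2.Order

local notation "Qb" => AlgebraicClosure ℚ
local notation "GQ" => (AlgebraicClosure ℚ ≃ₐ[ℚ] AlgebraicClosure ℚ)

section LevelAction

variable {A : Type} [CommRing A] [IsLocalRing A] (ρ : GaloisRepAdic A) (I : Ideal A)

theorem levelAction_mk (σ : GQ) (v : ρ.V) :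
    ρ.levelAction I σ (Submodule.Quotient.mk v) = Submodule.Quotient.mk (ρ.ρ σ v) := rfl

theorem levelAction_one (y : ρ.V ⧸ (I • (⊤ : Submodule A ρ.V))) : ρ.levelAction I 1 y = y := by
  induction y using Submodule.Quotient.induction_on with
  | H v => rw [levelAction_mk, map_one]; rfl

theorem levelAction_mul (σ τ : GQ) (y : ρ.V ⧸ (I • (⊤ : Submodule A ρ.V))) :
    ρ.levelAction I (σ * τ) y = ρ.levelAction I σ (ρ.levelAction I τ y) := by
  induction y using Submodule.Quotient.induction_on with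
  | H v => rw [levelAction_mk, levelAction_mk, levelAction_mk, map_mul]; rfl

/-- The `G_ℚ`-action on `ρ.V / I·ρ.V`, as a monoid homomorphism. -/
noncomputable def levelHom : GQ →* AddMonoid.End (ρ.V ⧸ (I • (⊤ : Submodule A ρ.V))) where
  toFun σ := (ρ.levelAction I σ).toAddMonoidHom
  map_one' := AddMonoidHom.ext fun y => levelAction_one ρ I y
  map_mul' σ τ := AddMonoidHom.ext fun y => levelAction_mul ρ I σ τ y

theorem levelHom_apply (σ : GQ) (y : ρ.V ⧸ (I • (⊤ : Submodule A ρ.V))) :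
    levelHom ρ I σ y = ρ.levelAction I σ y := rfl

end LevelAction

section TorsAction

variable (N : ℕ) [NeZero N] (p : ℕ) [Fact p.Prime] (m : ℕ)

/-- The `G_ℚ`-action on `J₀(N)[p^m]`, as a monoid homomorphism. -/
noncomputable def torsHom :
    GQ →* AddMonoid.End ↥(Submodule.torsionBy ℤ (JZero N) ((p : ℤ) ^ m)) where
  toFun σ :=
    { toFun := torsAct N p m σ
      map_zero' := torsAct_zero N p m σ
      map_add' := fun v w => Subtype.ext (by
        rw [Submodule.coe_add, coe_torsAct, coe_torsAct, coe_torsAct, Submodule.coe_add,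
          smul_add]) }
  map_one' := AddMonoidHom.ext fun v => Subtype.ext (by
    show ((torsAct N p m 1 v : ↥(Submodule.torsionBy ℤ (JZero N) ((p : ℤ) ^ m))) : JZero N) = v
    rw [coe_torsAct, one_smul])
  map_mul' σ τ := AddMonoidHom.ext fun v => Subtype.ext (by
    show ((torsAct N p m (σ * τ) v : ↥(Submodule.torsionBy ℤ (JZero N) ((p : ℤ) ^ m))) : JZero N)
      = ((torsAct N p m σ (torsAct N p m τ v) :
        ↥(Submodule.torsionBy ℤ (JZero N) ((p : ℤ) ^ m))) : JZero N)
    rw [coe_torsAct, coe_torsAct, coe_torsAct, mul_smul])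

theorem torsHom_apply (σ : GQ) (v : ↥(Submodule.torsionBy ℤ (JZero N) ((p : ℤ) ^ m))) :
    torsHom N p m σ v = torsAct N p m σ v := rfl

end TorsAction

section EndAnn

variable {A : Type} [CommRing A] [IsLocalRing A]

/-- **`IsFlatAt` from annihilators.** -/
theorem isFlatAt_of_ann (ρ : GaloisRepAdic A) (p : ℕ) [Fact p.Prime] (N : ℕ) [NeZero N]
    (hres : Finite (IsLocalRing.ResidueField A))
    (hflat : ∀ m : ℕ, IsFlatRealizable.{0} (globalOp p) (torsAct N p m))
    (hfin : ∀ m : ℕ, Finite ↥(Submodule.torsionBy ℤ (JZero N) ((p : ℤ) ^ m)))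
    (hfinV : ∀ I : Ideal A, Finite (A ⧸ I) → Finite (ρ.V ⧸ (I • (⊤ : Submodule A ρ.V))))
    (hann : ∀ I : Ideal A, Finite (A ⧸ I) → ∃ m : ℕ, ∀ u : GQ →₀ ℤ,
      (∀ x : ↥(Submodule.torsionBy ℤ (JZero N) ((p : ℤ) ^ m)),
        u.sum (fun σ n => n • torsAct N p m σ x) = 0) →
      ∀ y : ρ.V ⧸ (I • (⊤ : Submodule A ρ.V)), u.sum (fun σ n => n • ρ.levelAction I σ y) = 0) :
    ρ.IsFlatAt p := by
  refine isFlatAt_of_realisation ρ p N hres hflat hfin (fun I hI => ?_)
  have h1 := hann I hI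
  obtain ⟨m, hm⟩ := h1
  have h2 : Finite ↥(Submodule.torsionBy ℤ (JZero N) ((p : ℤ) ^ m)) := hfin m
  have h3 : Finite (ρ.V ⧸ (I • (⊤ : Submodule A ρ.V))) := hfinV I hI
  have h4 := exists_subquotient_of_ann'
    (torsHom N p m) (levelHom ρ I)
    (fun u hu y => hm u (fun x => hu x) y)
  simp only [torsHom_apply, levelHom_apply] at h4
  obtain ⟨W, hW, q, hq, hqact⟩ := h4
  have h5 : Finite ((ρ.V ⧸ (I • (⊤ : Submodule A ρ.V))) ×
      ↥(Submodule.torsionBy ℤ (JZero N) ((p : ℤ) ^ m))) := inferInstance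
  exact ⟨m, _, h5, W, hW, q, hq, hqact⟩

end EndAnn

end Fermat.Agent.FF2.S32M
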