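import Mathlib
import Fermat.Prelude.Def_GaloisRep_Flat
import Fermat.Agent.Cheb.FrobCompare
import Fermat.Agent.S53.SchurH19

/-!
# FF2 / S32M (L5) : the model `N = (A ⧸ I) ⊗[A] ρ.V` of the level `ρ.V ⧸ I • ⊤`

* `baseChange_surjective_of_free` : for `V` finite free over `A`, base change
  `End_A V → End_{A/I} ((A/I) ⊗ V)` is surjective.
* `span_range_redHom_eq_top` : if `ρ(G)` spans `End_A V` then `redHom ρ I` spans.
* `trace_redHom`, `det_redHom`.
* `levelEquiv` : `(A ⧸ I) ⊗[A] ρ.V ≃ₗ[A] ρ.V ⧸ I • ⊤`, equivariant (`levelEquiv_redHom`).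
* `ann_level_of_ann_redHom` : the transfer of annihilators from `redHom` to `levelAction`.
-/

set_option autoImplicit false
set_option linter.unusedSectionVars false

open TensorProduct

namespace Fermat.Agent.FF2.S32M

local notation "GQ" => (AlgebraicClosure ℚ ≃ₐ[ℚ] AlgebraicClosure ℚ)

section Alg

variable {A : Type*} [CommRing A] (I : Ideal A) {V : Type*} [AddCommGroup V] [Module A V]
  [Module.Free A V] [Module.Finite A V]

/-- Base change `End_A V → End_{A/I}((A/I) ⊗ V)` is surjective for `V` finite free. -/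
theorem baseChange_surjective_of_free (f : Module.End (A ⧸ I) ((A ⧸ I) ⊗[A] V)) :
    ∃ F : Module.End A V, F.baseChange (A ⧸ I) = f := by
  classical
  let b := Module.Free.chooseBasis A V
  let b' := b.baseChange (A ⧸ I)
  -- lifts of the matrix coefficients
  choose lift hlift using fun a : A ⧸ I => Ideal.Quotient.mk_surjective a
  let F : Module.End A V := b.constr A fun j => ∑ i, lift (b'.repr (f (b' j)) i) • b i
  refine ⟨F, b'.ext fun j => ?_⟩
  have h1 : b' j = (1 : A ⧸ I) ⊗ₜ[A] b j := Module.Basis.baseChange_apply _ _ _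
  rw [h1, LinearMap.baseChange_tmul]
  have h2 : F (b j) = ∑ i, lift (b'.repr (f (b' j)) i) • b i := b.constr_basis A _ j
  rw [h2, TensorProduct.tmul_sum]
  rw [← h1]
  conv_rhs => rw [← b'.sum_repr (f (b' j))]
  refine Finset.sum_congr rfl fun i _ => ?_
  have h3 : b' i = (1 : A ⧸ I) ⊗ₜ[A] b i := Module.Basis.baseChange_apply _ _ _
  rw [h3, TensorProduct.tmul_smul, TensorProduct.smul_tmul', TensorProduct.smul_tmul',
    smul_eq_mul, mul_one]
  congr 1
  rw [Algebra.smul_def, mul_one]
  exact hlift _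

variable {G : Type*} [Monoid G]

/-- If `ρ(G)` spans `End_A V` then its reduction spans `End_{A/I}((A/I) ⊗ V)`. -/
theorem span_range_baseChange_eq_top (ρ : G →* Module.End A V)
    (hspan : Submodule.span A (Set.range ρ) = ⊤) :
    Submodule.span (A ⧸ I) (Set.range fun g => (ρ g).baseChange (A ⧸ I)) = ⊤ := by
  rw [eq_top_iff]
  intro f _
  obtain ⟨F, rfl⟩ := baseChange_surjective_of_free I f
  have hF : F ∈ Submodule.span A (Set.range ρ) := by rw [hspan]; trivial
  induction hF using Submodule.span_induction with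
  | mem y hy =>
    obtain ⟨g, rfl⟩ := hy
    exact Submodule.subset_span ⟨g, rfl⟩
  | zero =>
    rw [LinearMap.baseChange_zero]
    exact Submodule.zero_mem _
  | add y z _ _ hy hz =>
    rw [LinearMap.baseChange_add]
    exact Submodule.add_mem _ (hy trivial) (hz trivial)
  | smul c y _ hy =>
    rw [LinearMap.baseChange_smul]
    have h1 : c • (y.baseChange (A ⧸ I)) = (Ideal.Quotient.mk I c) • (y.baseChange (A ⧸ I)) := by
      apply LinearMap.ext
      intro z
      rw [LinearMap.smul_apply, LinearMap.smul_apply]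
      induction z using TensorProduct.induction_on with
      | zero => simp
      | tmul a v =>
        rw [LinearMap.baseChange_tmul, TensorProduct.smul_tmul', TensorProduct.smul_tmul',
          Algebra.smul_def, smul_eq_mul]
        rfl
      | add z w hz hw => rw [map_add, smul_add, smul_add, hz, hw]
    rw [h1]
    exact Submodule.smul_mem _ _ (hy trivial)

end Alg

section Rep

variable {A : Type} [CommRing A] [IsLocalRing A] (ρ : GaloisRepAdic A) (I : Ideal A)

open Fermat.Agent.Cheb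

theorem span_range_redHom_eq_top (hspan : Submodule.span A (Set.range ρ.ρ) = ⊤) :
    Submodule.span (A ⧸ I) (Set.range (redHom ρ I)) = ⊤ :=
  span_range_baseChange_eq_top I ρ.ρ hspan

theorem span_range_redHom_eq_top_of_absIrr (h : ρ.residual.IsAbsolutelyIrreducible) :
    Submodule.span (A ⧸ I) (Set.range (redHom ρ I)) = ⊤ :=
  span_range_redHom_eq_top ρ I (Fermat.Agent.S53.SchurH19.adic_span_range_eq_top ρ h)

theorem trace_redHom (σ : GQ) :
    LinearMap.trace (A ⧸ I) _ (redHom ρ I σ) = Ideal.Quotient.mk I (ρ.trace σ) := by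
  rw [redHom_apply, LinearMap.trace_baseChange]
  rfl

theorem det_redHom (σ : GQ) :
    LinearMap.det (redHom ρ I σ) = Ideal.Quotient.mk I ((ρ.det σ : Aˣ) : A) := by
  rw [redHom_apply, LinearMap.det_baseChange]
  rfl

theorem finrank_red [Nontrivial (A ⧸ I)] : Module.finrank (A ⧸ I) ((A ⧸ I) ⊗[A] ρ.V) = 2 := by
  rw [Module.finrank_baseChange, ρ.finrank_eq]

/-- `(A ⧸ I) ⊗[A] ρ.V ≃ ρ.V ⧸ I • ⊤`. -/
noncomputable def levelEquiv :
    ((A ⧸ I) ⊗[A] ρ.V) ≃ₗ[A] (ρ.V ⧸ (I • (⊤ : Submodule A ρ.V))) :=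
  TensorProduct.quotTensorEquivQuotSMul ρ.V I

theorem levelEquiv_redHom (σ : GQ) (z : (A ⧸ I) ⊗[A] ρ.V) :
    levelEquiv ρ I (redHom ρ I σ z) = ρ.levelAction I σ (levelEquiv ρ I z) := by
  induction z using TensorProduct.induction_on with
  | zero => rw [map_zero, map_zero, map_zero]
  | tmul a v =>
    obtain ⟨r, rfl⟩ := Ideal.Quotient.mk_surjective a
    rw [redHom_apply, LinearMap.baseChange_tmul]
    show TensorProduct.quotTensorEquivQuotSMul ρ.V I (Ideal.Quotient.mk I r ⊗ₜ[A] ρ.ρ σ v) =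
      ρ.levelAction I σ (TensorProduct.quotTensorEquivQuotSMul ρ.V I
        (Ideal.Quotient.mk I r ⊗ₜ[A] v))
    rw [TensorProduct.quotTensorEquivQuotSMul_mk_tmul, TensorProduct.quotTensorEquivQuotSMul_mk_tmul,
      ← map_smul]
    rfl
  | add z w hz hw => rw [map_add, map_add, map_add, map_add, hz, hw]

/-- Transfer of annihilators from the model `(A ⧸ I) ⊗ ρ.V` to the level `ρ.V ⧸ I • ⊤`. -/
theorem ann_level_of_ann_redHom (u : GQ →₀ ℤ)
    (hu : ∀ z : (A ⧸ I) ⊗[A] ρ.V, u.sum (fun σ n => n • redHom ρ I σ z) = 0)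
    (y : ρ.V ⧸ (I • (⊤ : Submodule A ρ.V))) :
    u.sum (fun σ n => n • ρ.levelAction I σ y) = 0 := by
  obtain ⟨z, rfl⟩ := (levelEquiv ρ I).surjective y
  have h1 := congrArg (levelEquiv ρ I) (hu z)
  rw [map_zero, Finsupp.sum, map_sum] at h1
  rw [Finsupp.sum, ← h1]
  refine Finset.sum_congr rfl fun σ _ => ?_
  rw [map_zsmul, levelEquiv_redHom]

end Rep

end Fermat.Agent.FF2.S32M
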