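import Mathlib
import Fermat.Agent.FF2.S32E.AevalEnd
import Fermat.Agent.FF2.S32X.AnnArtinian

/-!
# FF2 / S32M (L9a) : the annihilator transfer for a polynomial Hecke action

`ann_of_poly_ch` : `M` a finite `𝒪`-module with commuting endomorphisms `τ i` (`i : ι`) and a
`G`-action `αM` commuting with them, such that every `g` satisfies `g² = τ (t₀ g) g − d₀ g` on `M`;
`A` a local `𝒪`-algebra with a family `φ : ι → A` generating it, such that every polynomial killing
`M` (through `τ`) dies in `A` (through `φ`); `N` free of rank two over `A` with a `G`-action `αN`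
spanning `End_A N`, of trace `φ (t₀ g)` and determinant `d₀ g`.  Then every `u ∈ ℤ[G]` killing `M`
kills `N`.

(`R := MvPolynomial ι 𝒪 ⧸ ker (aevalEnd τ)` is a finite commutative ring acting faithfully on `M`;
plug into `S32X.ann_of_ch_artinian`.)
-/

set_option autoImplicit false
set_option linter.unusedSectionVars false
set_option linter.style.haveILetI false

namespace Fermat.Agent.FF2.S32M

open Fermat.Agent.FF2.S32E

variable {𝒪 A G M N ι : Type*} [CommRing 𝒪] [CommRing A] [IsLocalRing A] [Algebra 𝒪 A] [Group G]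
  [AddCommGroup M] [Module 𝒪 M] [Finite M]
  [AddCommGroup N] [Module A N] [Module.Free A N] [Module.Finite A N]

theorem ann_of_poly_ch
    (τ : ι → Module.End 𝒪 M) (hcomm : ∀ i j, Commute (τ i) (τ j))
    (αM : G →* Module.End 𝒪 M) (hα : ∀ g i, Commute (αM g) (τ i))
    (t₀ : G → ι) (d₀ : G → 𝒪)
    (hch : ∀ g, αM g * αM g = τ (t₀ g) * αM g - d₀ g • (1 : Module.End 𝒪 M))
    (φ : ι → A)
    (hsat : ∀ h : MvPolynomial ι 𝒪, aevalEnd τ hcomm h = 0 → MvPolynomial.aeval φ h = 0)
    (hsurj : Function.Surjective (MvPolynomial.aeval (R := 𝒪) φ))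
    (hN : Module.finrank A N = 2) (αN : G →* Module.End A N)
    (hspan : Submodule.span A (Set.range αN) = ⊤)
    (htr : ∀ g, φ (t₀ g) = LinearMap.trace A N (αN g))
    (hdet : ∀ g, algebraMap 𝒪 A (d₀ g) = LinearMap.det (αN g))
    (u : G →₀ ℤ) (hu : ∀ x : M, u.sum (fun g n => n • αM g x) = 0) (y : N) :
    u.sum (fun g n => n • αN g y) = 0 := by
  -- the ring `R`
  haveI : Finite (EndRing τ hcomm) := finite_endRing τ hcomm
  letI modR : Module (EndRing τ hcomm) M :=
    Module.compHom M (aevalEndQuot τ hcomm).toRingHom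
  have hsmul : ∀ (r : EndRing τ hcomm) (x : M), r • x = aevalEndQuot τ hcomm r x := fun _ _ => rfl
  haveI : Module.Finite (EndRing τ hcomm) M := Module.Finite.of_finite
  have hfaith : ∀ r : EndRing τ hcomm, (∀ x : M, r • x = 0) → r = 0 := fun r hr =>
    eq_zero_of_forall_apply_eq_zero τ hcomm r hr
  -- the `R`-linear action
  have hαr : ∀ (g : G) (r : EndRing τ hcomm) (x : M), αM g (r • x) = r • αM g x := by
    intro g r x
    obtain ⟨h, rfl⟩ := Ideal.Quotient.mk_surjective r
    rw [hsmul, hsmul, aevalEndQuot_mk]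
    have h1 := commute_aevalEnd τ hcomm (g := αM g) (hα g) h
    exact congrArg (fun F : Module.End 𝒪 M => F x) h1.eq
  let αM' : G →* Module.End (EndRing τ hcomm) M :=
    { toFun := fun g =>
        { toFun := αM g
          map_add' := map_add (αM g)
          map_smul' := fun r x => hαr g r x }
      map_one' := by
        apply LinearMap.ext
        intro x
        show αM 1 x = x
        rw [map_one]; rfl
      map_mul' := fun g g' => by
        apply LinearMap.ext
        intro x
        show αM (g * g') x = αM g (αM g' x)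
        rw [map_mul]; rfl }
  have hαM' : ∀ g x, αM' g x = αM g x := fun _ _ => rfl
  let t : G → EndRing τ hcomm := fun g => Ideal.Quotient.mk _ (MvPolynomial.X (t₀ g))
  let d : G → EndRing τ hcomm := fun g => Ideal.Quotient.mk _ (MvPolynomial.C (d₀ g))
  have hch' : ∀ g, αM' g * αM' g = t g • αM' g - d g • (1 : Module.End (EndRing τ hcomm) M) := by
    intro g
    apply LinearMap.ext
    intro x
    have h1 := congrArg (fun F : Module.End 𝒪 M => F x) (hch g)
    simp only [Module.End.mul_apply, LinearMap.sub_apply, LinearMap.smul_apply,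
      Module.End.one_apply] at h1
    rw [Module.End.mul_apply, LinearMap.sub_apply, LinearMap.smul_apply, LinearMap.smul_apply,
      Module.End.one_apply, hαM', hαM', hsmul, hsmul]
    show _ = aevalEndQuot τ hcomm (Ideal.Quotient.mk _ (MvPolynomial.X (t₀ g))) (αM g x) -
      aevalEndQuot τ hcomm (Ideal.Quotient.mk _ (MvPolynomial.C (d₀ g))) x
    rw [aevalEndQuot_mk, aevalEndQuot_mk, aevalEnd_X, aevalEnd_C_apply]
    exact h1
  -- the map to `A`
  let Φ : EndRing τ hcomm →+* A :=
    Ideal.Quotient.lift (RingHom.ker (aevalEnd τ hcomm))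
      (MvPolynomial.aeval (R := 𝒪) φ).toRingHom
      (fun h hh => hsat h (RingHom.mem_ker.mp hh))
  have hΦmk : ∀ h : MvPolynomial ι 𝒪, Φ (Ideal.Quotient.mk _ h) = MvPolynomial.aeval φ h :=
    fun h => rfl
  have hΦ : Function.Surjective Φ := by
    intro a
    obtain ⟨h, rfl⟩ := hsurj a
    exact ⟨Ideal.Quotient.mk _ h, hΦmk h⟩
  have htr' : ∀ g, Φ (t g) = LinearMap.trace A N (αN g) := by
    intro g
    rw [← htr g]
    show Φ (Ideal.Quotient.mk _ (MvPolynomial.X (t₀ g))) = _
    rw [hΦmk, MvPolynomial.aeval_X]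
  have hdet' : ∀ g, Φ (d g) = LinearMap.det (αN g) := by
    intro g
    rw [← hdet g]
    show Φ (Ideal.Quotient.mk _ (MvPolynomial.C (d₀ g))) = _
    rw [hΦmk, MvPolynomial.aeval_C]
  exact Fermat.Agent.FF2.S32X.ann_of_ch_artinian hfaith αM' t d hch' Φ hΦ hN αN hspan htr' hdet'
    u (fun x => hu x) y

end Fermat.Agent.FF2.S32M
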