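import Mathlib
import Fermat.Agent.FF2.S32M.PolyCH
import Fermat.Agent.FF2.S32M.ChiTrick

/-!
# FF2 / S32M (L9 assembly, abstract form)

`ann_of_tors_ch` : `X` a finite abelian group killed by `n`, with commuting endomorphisms `tX i` and a
`G`-action `gX` commuting with them and satisfying `g² = tX (t₀ g) g − q₀ g`; `𝒪` with a dual basis
modulo `n`; `T` an `𝒪`-algebra, `I` an ideal with `T ⧸ I` local, `φ : ι → T` generating `T ⧸ I` over
`𝒪`, such that integral polynomials killing `X` are sent into `I` and `n ∈ I`; `N` free of rank two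
over `T ⧸ I` with a spanning `G`-action of trace `φ (t₀ g)` and determinant `q₀ g`.  Then every
`u ∈ ℤ[G]` killing `X` kills `N`.
-/

set_option autoImplicit false
set_option linter.unusedSectionVars false
set_option linter.style.haveILetI false

open TensorProduct

namespace Fermat.Agent.FF2.S32M

open Fermat.Agent.FF2.S32E Fermat.Agent.FF2.S32C

variable {𝒪 T G X N ι : Type*} [CommRing 𝒪] [CommRing T] [Algebra 𝒪 T] [Group G]
  [AddCommGroup X] [Finite X] {n : ℕ} [NeZero n]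
  (I : Ideal T) [IsLocalRing (T ⧸ I)]
  [AddCommGroup N] [Module (T ⧸ I) N] [Module.Free (T ⧸ I) N] [Module.Finite (T ⧸ I) N]

theorem ann_of_tors_ch [Finite (𝒪 ⧸ Ideal.span {(n : 𝒪)})]
    (hX : ∀ x : X, (n : ℤ) • x = 0)
    (tX : ι → Module.End ℤ X) (htX : ∀ i j, Commute (tX i) (tX j))
    (gX : G →* Module.End ℤ X) (hg : ∀ g i, Commute (gX g) (tX i))
    (t₀ : G → ι) (q₀ : G → ℕ)
    (hquad : ∀ g, gX g * gX g = tX (t₀ g) * gX g - ((q₀ g : ℕ) : ℤ) • (1 : Module.End ℤ X))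
    {r : ℕ} (b : Fin r → 𝒪) (χ : Fin r → 𝒪 →+ ZMod n)
    (hdual : ∀ c : 𝒪, ∃ d : 𝒪, c = ∑ j, (((χ j c).val : ℕ) : 𝒪) * b j + (n : 𝒪) * d)
    (φ : ι → T) (hn : (n : T) ∈ I)
    (hsatZ : ∀ h₀ : MvPolynomial ι ℤ, (∀ x, aevalEnd tX htX h₀ x = 0) →
      MvPolynomial.aeval φ h₀ ∈ I)
    (hsurj : Function.Surjective
      (MvPolynomial.aeval (R := 𝒪) fun i => Ideal.Quotient.mk I (φ i)))
    (hN : Module.finrank (T ⧸ I) N = 2) (αN : G →* Module.End (T ⧸ I) N)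
    (hspan : Submodule.span (T ⧸ I) (Set.range αN) = ⊤)
    (htr : ∀ g, Ideal.Quotient.mk I (φ (t₀ g)) = LinearMap.trace (T ⧸ I) N (αN g))
    (hdet : ∀ g, ((q₀ g : ℕ) : T ⧸ I) = LinearMap.det (αN g))
    (u : G →₀ ℤ) (hu : ∀ x : X, u.sum (fun g k => k • gX g x) = 0) (y : N) :
    u.sum (fun g k => k • αN g y) = 0 := by
  haveI : Finite (𝒪 ⊗[ℤ] X) := finite_tensor (𝒪 := 𝒪) hX
  let αM : G →* Module.End 𝒪 (𝒪 ⊗[ℤ] X) :=
    ((Module.End.baseChangeHom ℤ 𝒪 X : _ →ₐ[ℤ] _) : _ →* _).comp gX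
  have hαM : ∀ g, αM g = (gX g).baseChange 𝒪 := fun g => rfl
  refine ann_of_poly_ch (𝒪 := 𝒪) (A := T ⧸ I)
    (fun i => ((tX i).baseChange 𝒪 : Module.End 𝒪 (𝒪 ⊗[ℤ] X)))
    (fun i j => commute_baseChange (htX i j))
    αM (fun g i => ?_) t₀ (fun g => ((q₀ g : ℕ) : 𝒪)) (fun g => ?_)
    (fun i => Ideal.Quotient.mk I (φ i)) (fun h hh => ?_) hsurj hN αN hspan htr
    (fun g => ?_) u (fun x => ?_) y
  · rw [hαM]
    exact commute_baseChange (hg g i)
  · rw [hαM]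
    have h1 := congrArg (fun F => LinearMap.baseChange 𝒪 F) (hquad g)
    simp only [LinearMap.baseChange_mul, LinearMap.baseChange_sub, LinearMap.baseChange_smul,
      LinearMap.baseChange_one] at h1
    rw [h1]
    congr 1
    exact (Int.cast_smul_eq_zsmul 𝒪 ((q₀ g : ℕ) : ℤ) (1 : Module.End 𝒪 (𝒪 ⊗[ℤ] X))).symm.trans
      (by rw [Int.cast_natCast])
  · have h1 := sat_of_chi (𝒪 := 𝒪) (T := T) hX tX htX b χ hdual φ I hn hsatZ h hh
    have h2 : MvPolynomial.aeval (fun i => Ideal.Quotient.mk I (φ i)) h =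
        Ideal.Quotient.mk I (MvPolynomial.aeval φ h) :=
      (MvPolynomial.comp_aeval_apply φ (Ideal.Quotient.mkₐ 𝒪 I) h).symm
    rw [h2]
    exact Ideal.Quotient.eq_zero_iff_mem.mpr h1
  · rw [map_natCast]
    exact hdet g
  · exact sum_zsmul_baseChange_apply_eq_zero (𝒪 := 𝒪) (fun g => gX g) u hu x

end Fermat.Agent.FF2.S32M
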