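import Mathlib
import Fermat.Agent.FF2.S32M.Defs
import Fermat.Agent.FF2.S32M.EndAnn
import Fermat.Agent.FF2.S32E.AevalEnd
import Fermat.Agent.Jac.HeckeCommUncond

/-!
# FF2 / S32M (L9c) : the Hecke and Galois operators on `J₀(N)[p^m]`

* `resEnd` : restriction of endomorphisms of `J₀(N)(ℚ̄)` to the torsion subgroup, a ring hom.
* `tX` : the Hecke operators `T_ℓ` (`ℓ ∉ S`) on `J₀(N)[p^m]`; `tX_comm`.
* `gX` : the Galois action as `G_ℚ →* Module.End ℤ X`; `gX_comm_tX`.
* `aevalEnd_tX` : `aevalEnd tX h₀ = resEnd (heckeEvalBar (rename val h₀))`.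
-/

set_option autoImplicit false
set_option linter.unusedSectionVars false
set_option linter.style.haveILetI false

namespace Fermat.Agent.FF2.S32M

open ModularCurve Fermat.Agent.FF2.Order Fermat.Agent.FF2.S32E

local notation "Qb" => AlgebraicClosure ℚ
local notation "GQ" => (AlgebraicClosure ℚ ≃ₐ[ℚ] AlgebraicClosure ℚ)

section Res

variable {J : Type*} [AddCommGroup J] (a : ℤ)

/-- Restriction of an endomorphism to the `a`-torsion. -/
def resEndFun (f : Module.End ℤ J) : Module.End ℤ ↥(Submodule.torsionBy ℤ J a) :=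
  f.restrict (fun x hx => by
    rw [Submodule.mem_torsionBy_iff] at hx ⊢
    rw [← map_zsmul, hx, map_zero])

@[simp] theorem coe_resEndFun (f : Module.End ℤ J) (x : ↥(Submodule.torsionBy ℤ J a)) :
    ((resEndFun a f x : ↥(Submodule.torsionBy ℤ J a)) : J) = f (x : J) := rfl

/-- Restriction to the `a`-torsion as a ring homomorphism. -/
def resEnd : Module.End ℤ J →+* Module.End ℤ ↥(Submodule.torsionBy ℤ J a) where
  toFun := resEndFun a
  map_one' := LinearMap.ext fun _ => Subtype.ext rfl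
  map_mul' _ _ := LinearMap.ext fun _ => Subtype.ext rfl
  map_zero' := LinearMap.ext fun _ => Subtype.ext rfl
  map_add' _ _ := LinearMap.ext fun _ => Subtype.ext rfl

@[simp] theorem coe_resEnd (f : Module.End ℤ J) (x : ↥(Submodule.torsionBy ℤ J a)) :
    ((resEnd a f x : ↥(Submodule.torsionBy ℤ J a)) : J) = f (x : J) := rfl

end Res

section Tors

variable (N : ℕ) [NeZero N] (p : ℕ) [Fact p.Prime] (m : ℕ) (S : Finset ℕ)

/-- The Hecke operator `T_ℓ`, `ℓ ∉ S`, on `J₀(N)[p^m]`. -/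
noncomputable def tX (i : PIdx S) : Module.End ℤ ↥(Submodule.torsionBy ℤ (JZero N) ((p : ℤ) ^ m)) :=
  resEnd ((p : ℤ) ^ m) (heckeOperatorBar N i.1)

theorem coe_tX (i : PIdx S) (x : ↥(Submodule.torsionBy ℤ (JZero N) ((p : ℤ) ^ m))) :
    ((tX N p m S i x : ↥(Submodule.torsionBy ℤ (JZero N) ((p : ℤ) ^ m))) : JZero N) =
      heckeOperatorBar N i.1 (x : JZero N) := rfl

theorem tX_comm (i j : PIdx S) : Commute (tX N p m S i) (tX N p m S j) := by
  show resEnd _ _ * resEnd _ _ = resEnd _ _ * resEnd _ _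
  rw [← map_mul, ← map_mul, Fermat.Agent.Jac.heckeOperatorsCommuteBar N i.1 j.1]

/-- The Galois action on `J₀(N)[p^m]`, valued in `Module.End ℤ`. -/
noncomputable def gX : GQ →* Module.End ℤ ↥(Submodule.torsionBy ℤ (JZero N) ((p : ℤ) ^ m)) where
  toFun σ := (torsHom N p m σ).toIntLinearMap
  map_one' := by
    apply LinearMap.ext
    intro x
    exact congrArg (fun F : AddMonoid.End ↥(Submodule.torsionBy ℤ (JZero N) ((p : ℤ) ^ m)) => F x)
      (MonoidHom.map_one (torsHom N p m))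
  map_mul' σ τ := by
    apply LinearMap.ext
    intro x
    exact congrArg (fun F : AddMonoid.End ↥(Submodule.torsionBy ℤ (JZero N) ((p : ℤ) ^ m)) => F x)
      (MonoidHom.map_mul (torsHom N p m) σ τ)

theorem gX_apply (σ : GQ) (x : ↥(Submodule.torsionBy ℤ (JZero N) ((p : ℤ) ^ m))) :
    gX N p m σ x = torsAct N p m σ x := rfl

theorem coe_gX (σ : GQ) (x : ↥(Submodule.torsionBy ℤ (JZero N) ((p : ℤ) ^ m))) :
    ((gX N p m σ x : ↥(Submodule.torsionBy ℤ (JZero N) ((p : ℤ) ^ m))) : JZero N) =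
      σ • (x : JZero N) := rfl

/-- Galois commutes with the Hecke operators on `J₀(N)(ℚ̄)`. -/
theorem smul_heckeOperatorBar (σ : GQ) (ℓ : Nat.Primes) (x : JZero N) :
    σ • heckeOperatorBar N ℓ x = heckeOperatorBar N ℓ (σ • x) := by
  letI := heckeModuleBar N
  haveI := Fermat.Agent.Jac.smulCommClass_GQ_heckeAlg N
  have h := smul_comm σ (heckeGen ℓ) x
  rw [Fermat.Agent.Jac.heckeGen_smul_eq N ℓ x, Fermat.Agent.Jac.heckeGen_smul_eq N ℓ (σ • x)] at h
  exact h

theorem gX_comm_tX (σ : GQ) (i : PIdx S) : Commute (gX N p m σ) (tX N p m S i) := by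
  apply LinearMap.ext
  intro x
  apply Subtype.ext
  exact smul_heckeOperatorBar N σ i.1 (x : JZero N)

/-- Polynomials in the `tX i` are restrictions of the Prelude's Hecke evaluation. -/
theorem aevalEnd_tX (h₀ : MvPolynomial (PIdx S) ℤ) :
    aevalEnd (tX N p m S) (tX_comm N p m S) h₀ =
      resEnd ((p : ℤ) ^ m) (heckeEvalBar (Fermat.Agent.Jac.heckeOperatorsCommuteBar N)
        (MvPolynomial.rename (fun i : PIdx S => i.1) h₀)) := by
  have h1 := aevalEnd_unique (tX N p m S) (tX_comm N p m S)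
    (((resEnd ((p : ℤ) ^ m)).comp
      ((heckeEvalBar (Fermat.Agent.Jac.heckeOperatorsCommuteBar N)).comp
        (MvPolynomial.rename (fun i : PIdx S => i.1) :
          MvPolynomial (PIdx S) ℤ →ₐ[ℤ] MvPolynomial Nat.Primes ℤ).toRingHom)).toIntAlgHom)
    (fun i => by
      show resEnd ((p : ℤ) ^ m) (heckeEvalBar (Fermat.Agent.Jac.heckeOperatorsCommuteBar N)
        (MvPolynomial.rename (fun i : PIdx S => i.1) (MvPolynomial.X i))) = _
      rw [MvPolynomial.rename_X]
      show resEnd ((p : ℤ) ^ m) (heckeEvalBar (Fermat.Agent.Jac.heckeOperatorsCommuteBar N)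
        (heckeGen i.1)) = _
      rw [heckeEvalBar_heckeGen]
      rfl)
  exact (congrArg (fun F : MvPolynomial (PIdx S) ℤ →ₐ[ℤ]
    Module.End ℤ ↥(Submodule.torsionBy ℤ (JZero N) ((p : ℤ) ^ m)) => F h₀) h1).symm

/-- An integral Hecke polynomial kills `J₀(N)[p^m]` through `tX` iff it does through the Prelude's
`heckeEvalBar`. -/
theorem aevalEnd_tX_eq_zero_iff (h₀ : MvPolynomial (PIdx S) ℤ) :
    (∀ x, aevalEnd (tX N p m S) (tX_comm N p m S) h₀ x = 0) ↔
      ∀ x : JZero N, (p : ℤ) ^ m • x = 0 →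
        heckeEvalBar (Fermat.Agent.Jac.heckeOperatorsCommuteBar N)
          (MvPolynomial.rename (fun i : PIdx S => i.1) h₀) x = 0 := by
  rw [aevalEnd_tX]
  constructor
  · intro h x hx
    have h1 := congrArg (fun y : ↥(Submodule.torsionBy ℤ (JZero N) ((p : ℤ) ^ m)) => (y : JZero N))
      (h ⟨x, (Submodule.mem_torsionBy_iff _ _).mpr hx⟩)
    exact h1
  · intro h x
    apply Subtype.ext
    rw [coe_resEnd]
    exact h x ((Submodule.mem_torsionBy_iff _ _).mp x.2)

end Tors

end Fermat.Agent.FF2.S32M
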