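import Mathlib
import Fermat.Agent.FF2.S32M.TorsCH
import Fermat.Agent.FF2.S32M.TorsHecke
import Fermat.Agent.FF2.S32M.NModel
import Fermat.Agent.FF2.S32L.Free
import Fermat.Agent.FF2.S32G.Gen
import Fermat.Agent.FF2.S32X.Uncond

/-!
# FF2 / S32M (L9 assembly) : annihilators of `J₀(N)[p^m]` kill `ρ.V ⧸ I • ⊤`

`ann_level` : for the Hecke Galois datum `H`, an ideal `I ≠ ⊤` of finite index in `T` and `m` such
that (SAT-Z at `I`) every integral Hecke polynomial killing `J₀(N)[p^m]` has its eigenvalue in `I`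
and `p^m ∈ I`: every `u ∈ ℤ[G_ℚ]` killing `J₀(N)[p^m]` kills `H.ρ.V ⧸ I • ⊤`.
-/

set_option autoImplicit false
set_option linter.unusedSectionVars false
set_option linter.style.haveILetI false

open TensorProduct

namespace Fermat.Agent.FF2.S32M

open ModularCurve CuspForm Fermat.Agent.FF2.Order Fermat.Agent.FF2.S32E Fermat.Agent.FF2.S32C
  Fermat.Agent.Cheb

local notation "Qb" => AlgebraicClosure ℚ
local notation "GQ" => (AlgebraicClosure ℚ ≃ₐ[ℚ] AlgebraicClosure ℚ)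

section DVR

variable {𝒪 : Type*} [CommRing 𝒪] [IsDomain 𝒪] [IsDiscreteValuationRing 𝒪]

/-- In a discrete valuation ring with finite residue field, `𝒪 ⧸ (a)` is finite for `a ≠ 0`. -/
theorem finite_quotient_span_singleton_of_ne_zero [Finite (IsLocalRing.ResidueField 𝒪)]
    {a : 𝒪} (ha : a ≠ 0) : Finite (𝒪 ⧸ Ideal.span {a}) := by
  obtain ⟨ϖ, hϖ⟩ := IsDiscreteValuationRing.exists_irreducible 𝒪
  have hne : Ideal.span {a} ≠ ⊥ := by
    rw [Ne, Ideal.span_singleton_eq_bot]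
    exact ha
  obtain ⟨n, hn⟩ := IsDiscreteValuationRing.ideal_eq_span_pow_irreducible hne hϖ
  have hm : IsLocalRing.maximalIdeal 𝒪 = Ideal.span {ϖ} := hϖ.maximalIdeal_eq
  have h1 : Ideal.span {a} = IsLocalRing.maximalIdeal 𝒪 ^ n := by
    rw [hn, hm, Ideal.span_singleton_pow]
  rw [h1]
  haveI : Finite (𝒪 ⧸ IsLocalRing.maximalIdeal 𝒪) :=
    (inferInstance : Finite (IsLocalRing.ResidueField 𝒪))
  exact Ideal.finite_quotient_pow (IsNoetherian.noetherian _) n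

end DVR

section Level

variable {p : ℕ} [hpF : Fact p.Prime] {N : ℕ} [NeZero N] {S : Finset ℕ}
  {𝒪 : Type} [CommRing 𝒪] [IsDomain 𝒪] [IsDiscreteValuationRing 𝒪]
  [IsAdicComplete (IsLocalRing.maximalIdeal 𝒪) 𝒪]
  {θ : CuspForm.heckeAlgebra N 2 (↑S : Set ℕ) →+* IsLocalRing.ResidueField 𝒪}
  {T : Type} [CommRing T] [IsLocalRing T] [IsNoetherianRing T]
  [IsAdicComplete (IsLocalRing.maximalIdeal T) T] [Algebra 𝒪 T] [IsLocalHom (algebraMap 𝒪 T)]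
  [Module.Finite 𝒪 T] [Module.Free 𝒪 T]

/-- The Cayley–Hamilton data at `g` on `J₀(N)[p^m]`, compatible with `ρ` modulo `I`. -/
theorem exists_ch_index (hNS : ∀ q : ℕ, q.Prime → q ∣ N → q ∈ S) (m : ℕ)
    (hfin : Finite ↥(Submodule.torsionBy ℤ (JZero N) ((p : ℤ) ^ m)))
    (H : HeckeGaloisRepDatum N (↑S : Set ℕ) 𝒪 θ T) (I : Ideal T) [Finite (T ⧸ I)] (g : GQ) :
    ∃ i : PIdx S,
      (gX N p m g * gX N p m g =
        tX N p m S i * gX N p m g - (((i.1 : ℕ) : ℕ) : ℤ) •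
          (1 : Module.End ℤ ↥(Submodule.torsionBy ℤ (JZero N) ((p : ℤ) ^ m)))) ∧
      H.ρ.trace g - piT hNS H.π i ∈ I ∧
      ((H.ρ.det g : Tˣ) : T) - (((i.1 : ℕ) : ℕ) : T) ∈ I := by
  have h := Fermat.Agent.FF2.S32X.exists_quadratic_trace_det' (p := p) m hfin H I ∅ g
  obtain ⟨q, hq, hqN, hqS, -, -, hquad, htr, hdet⟩ := h
  have hqS' : ((⟨q, hq⟩ : Nat.Primes) : ℕ) ∉ S := fun hs => hqS (Finset.mem_coe.mpr hs)
  refine ⟨⟨⟨q, hq⟩, hqS'⟩, ?_, htr, hdet⟩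
  apply LinearMap.ext
  intro x
  apply Subtype.ext
  have h1 := hquad (x : JZero N) ((Submodule.mem_torsionBy_iff _ _).mp x.2)
  rw [Fermat.Agent.Jac.heckeGen_smul_eq N ⟨q, hq⟩ (g • (x : JZero N))] at h1
  show g • g • (x : JZero N) =
    heckeOperatorBar N ⟨q, hq⟩ (g • (x : JZero N)) - ((q : ℕ) : ℤ) • (x : JZero N)
  rw [natCast_zsmul]
  rw [sub_add_eq_add_sub, sub_eq_zero] at h1
  rw [eq_sub_iff_add_eq]
  exact h1

/-- **Annihilator comparison at level `I`.** -/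
theorem ann_level [Finite (IsLocalRing.ResidueField 𝒪)] [CharZero 𝒪]
    (hNS : ∀ q : ℕ, q.Prime → q ∣ N → q ∈ S)
    (H : HeckeGaloisRepDatum N (↑S : Set ℕ) 𝒪 θ T) (I : Ideal T) [Finite (T ⧸ I)] (hI : I ≠ ⊤)
    (m : ℕ) (hfin : Finite ↥(Submodule.torsionBy ℤ (JZero N) ((p : ℤ) ^ m)))
    (hsatI : ∀ h₀ : MvPolynomial (PIdx S) ℤ,
      (∀ x : JZero N, (p : ℤ) ^ m • x = 0 →
        heckeEvalBar (Fermat.Agent.Jac.heckeOperatorsCommuteBar N)
          (MvPolynomial.rename (fun i : PIdx S => i.1) h₀) x = 0) →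
      MvPolynomial.aeval (piT hNS H.π) h₀ ∈ I)
    (hpI : ((p ^ m : ℕ) : T) ∈ I)
    (u : GQ →₀ ℤ)
    (hu : ∀ x : ↥(Submodule.torsionBy ℤ (JZero N) ((p : ℤ) ^ m)),
      u.sum (fun σ n => n • torsAct N p m σ x) = 0)
    (y : H.ρ.V ⧸ (I • (⊤ : Submodule T H.ρ.V))) :
    u.sum (fun σ n => n • H.ρ.levelAction I σ y) = 0 := by
  classical
  refine ann_level_of_ann_redHom H.ρ I u (fun z => ?_) y
  -- instances
  haveI : Nontrivial (T ⧸ I) := Ideal.Quotient.nontrivial_iff.mpr hI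
  haveI : IsLocalRing (T ⧸ I) :=
    IsLocalRing.of_surjective' (Ideal.Quotient.mk I) Ideal.Quotient.mk_surjective
  haveI : NeZero (p ^ m) := ⟨pow_ne_zero _ hpF.out.ne_zero⟩
  have hp0 : ∀ x : 𝒪, (p : 𝒪) * x = 0 → x = 0 := by
    intro x hx
    rcases mul_eq_zero.mp hx with h | h
    · exact absurd h (Nat.cast_ne_zero.mpr hpF.out.ne_zero)
    · exact h
  haveI : Finite (𝒪 ⧸ Ideal.span {(p : 𝒪)}) :=
    finite_quotient_span_singleton_of_ne_zero (Nat.cast_ne_zero.mpr hpF.out.ne_zero)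
  haveI hfq : Finite (𝒪 ⧸ Ideal.span {(p : 𝒪) ^ m}) :=
    Fermat.Agent.FF2.S32L.finite_quotient_span_pow (p := p) hp0 m
  haveI : Finite (𝒪 ⧸ Ideal.span {((p ^ m : ℕ) : 𝒪)}) := by
    rw [Nat.cast_pow]; exact hfq
  have hX : ∀ x : ↥(Submodule.torsionBy ℤ (JZero N) ((p : ℤ) ^ m)), ((p : ℤ) ^ m) • x = 0 :=
    fun x => Submodule.smul_torsionBy _ x
  have hXn : ∀ x : ↥(Submodule.torsionBy ℤ (JZero N) ((p : ℤ) ^ m)),
      ((p ^ m : ℕ) : ℤ) • x = 0 := natCast_pow_zsmul_eq_zero hX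
  -- the dual basis of `𝒪` modulo `p ^ m`
  obtain ⟨r, b, χ, hdual⟩ := Fermat.Agent.FF2.S32L.exists_dual_basis_mod_pow (O := 𝒪) (p := p) hp0 m
  have hdual' : ∀ c : 𝒪, ∃ d : 𝒪,
      c = ∑ j, (((χ j c).val : ℕ) : 𝒪) * b j + ((p ^ m : ℕ) : 𝒪) * d := by
    intro c
    obtain ⟨d, hd⟩ := hdual c
    exact ⟨d, by rw [Nat.cast_pow]; exact hd⟩
  -- Cayley–Hamilton data
  choose t₀ hquad htr hdet using fun g : GQ => exists_ch_index hNS m hfin H I g
  have htr' : ∀ g, Ideal.Quotient.mk I (piT hNS H.π (t₀ g)) =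
      LinearMap.trace (T ⧸ I) _ (redHom H.ρ I g) := by
    intro g
    rw [trace_redHom]
    exact (Ideal.Quotient.eq.mpr (htr g)).symm
  have hdet' : ∀ g, ((((t₀ g).1 : ℕ) : ℕ) : T ⧸ I) = LinearMap.det (redHom H.ρ I g) := by
    intro g
    rw [det_redHom, ← map_natCast (Ideal.Quotient.mk I)]
    exact (Ideal.Quotient.eq.mpr (hdet g)).symm
  exact ann_of_tors_ch (𝒪 := 𝒪) (T := T) (n := p ^ m) I hXn (tX N p m S) (tX_comm N p m S)
    (gX N p m) (fun g i => gX_comm_tX N p m S g i) t₀ (fun g => ((t₀ g).1 : ℕ)) hquad b χ hdual'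
    (piT hNS H.π) hpI
    (fun h₀ hh₀ => hsatI h₀ ((aevalEnd_tX_eq_zero_iff N p m S h₀).mp hh₀))
    (Fermat.Agent.FF2.S32G.aeval_π_quotient_surjective hNS H I)
    (finrank_red H.ρ I) (redHom H.ρ I)
    (span_range_redHom_eq_top_of_absIrr H.ρ I H.residual_absIrr)
    htr' hdet' u (fun x => hu x) z

end Level

end Fermat.Agent.FF2.S32M
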