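import Mathlib
import Fermat.Agent.FF2.S32M.Level
import Fermat.Agent.FF2.S32Z.SatJZero

/-!
# FF2 / S32M (TOP) : the frozen statement S32 from the frozen statement S19 and (G0)

`isFlatAt_of_S19` : given `S19Statement` (the frozen S19 at all levels) and the finiteness (G0) of
`J₀(N)[p^m]`, the representation `H.ρ` of a Hecke Galois datum of level `N`, `p ∤ N`, is flat at `p`.
This is the conclusion of the frozen statement S32, with its binders.
-/

set_option autoImplicit false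
set_option linter.unusedSectionVars false
set_option linter.style.haveILetI false

namespace Fermat.Agent.FF2.S32M

open ModularCurve CuspForm Fermat.Agent.FF2.Order

local notation "Qb" => AlgebraicClosure ℚ
local notation "GQ" => (AlgebraicClosure ℚ ≃ₐ[ℚ] AlgebraicClosure ℚ)

variable {p : ℕ} {N : ℕ} [NeZero N] {S : Finset ℕ}
  {𝒪 : Type} [CommRing 𝒪] [IsDomain 𝒪] [IsDiscreteValuationRing 𝒪]
  [IsAdicComplete (IsLocalRing.maximalIdeal 𝒪) 𝒪]
  {θ : CuspForm.heckeAlgebra N 2 (↑S : Set ℕ) →+* IsLocalRing.ResidueField 𝒪}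
  {T : Type} [CommRing T] [IsLocalRing T] [IsNoetherianRing T]
  [IsAdicComplete (IsLocalRing.maximalIdeal T) T] [Algebra 𝒪 T] [IsLocalHom (algebraMap 𝒪 T)]
  [Module.Finite 𝒪 T] [Module.Free 𝒪 T]

/-- **S32 from S19 and (G0).** -/
theorem isFlatAt_of_S19 (h19 : S19Statement)
    (hG0 : ∀ m : ℕ, Finite ↥(Submodule.torsionBy ℤ (JZero N) ((p : ℤ) ^ m)))
    [Finite (IsLocalRing.ResidueField 𝒪)] [CharZero 𝒪]
    (hp : p.Prime) (hp𝒪 : (p : 𝒪) ∈ IsLocalRing.maximalIdeal 𝒪) (hpN : ¬ p ∣ N)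
    (hNS : ∀ q : ℕ, q.Prime → q ∣ N → q ∈ S)
    (H : CuspForm.HeckeGaloisRepDatum N (↑S : Set ℕ) 𝒪 θ T) :
    H.ρ.IsFlatAt p := by
  haveI : Fact p.Prime := ⟨hp⟩
  have hpT : (p : T) ∈ IsLocalRing.maximalIdeal T :=
    Fermat.Agent.FF2.S32G.natCast_mem_maximalIdeal hp𝒪
  obtain ⟨c, hc⟩ := Fermat.Agent.FF2.S32Z.exists_sat_JZero hp hpT hNS H.π
  refine isFlatAt_of_ann H.ρ p N (Fermat.Agent.FF2.S32G.finite_residueField H)
    (fun m => isFlatRealizable_torsion_of_S19 h19 N p hpN m) hG0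
    (fun I hI => Fermat.Agent.TW.Hopf.DecompRing.finite_level H.ρ I hI) (fun I hI => ?_)
  haveI : Finite (T ⧸ I) := hI
  by_cases hItop : I = ⊤
  · -- the trivial level
    refine ⟨0, fun u _ y => ?_⟩
    have hsub : Subsingleton (H.ρ.V ⧸ (I • (⊤ : Submodule T H.ρ.V))) := by
      rw [hItop, Submodule.top_smul]
      exact Submodule.Quotient.subsingleton_iff.mpr rfl
    exact Subsingleton.elim _ _
  · obtain ⟨n, hn⟩ := Fermat.Agent.FF2.S32X.exists_pow_maximalIdeal_le I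
    refine ⟨n + c, fun u hu y => ?_⟩
    refine ann_level hNS H I hItop (n + c) (hG0 (n + c)) (fun h₀ hh₀ => ?_) ?_ u hu y
    · have h1 := hc (n + c) h₀ hh₀
      rw [Nat.add_sub_cancel] at h1
      exact hn h1
    · rw [Nat.cast_pow]
      have h1 : (p : T) ^ (n + c) ∈ IsLocalRing.maximalIdeal T ^ (n + c) :=
        Ideal.pow_mem_pow hpT _
      exact hn (Ideal.pow_le_pow_right (Nat.le_add_right n c) h1)

end Fermat.Agent.FF2.S32M
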